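import Fermat.Agent.GaussDuplication.Main

/-!
# Cubes of integers

A cube has three pairs of slices `(M, N)`, hence three forms `-det (M x - N y)`. Those two of them
fix the six minors of the third pair, so they fix the cube up to `SL₂` on that pair.
-/

set_option autoImplicit false

noncomputable section

namespace FA.BhargavaCubes

open FA.GaussComposition

/-- A `2 × 2 × 2` cube of integers; `a b c d` is the front face, `e f g h` the back one. -/
@[ext] structure Cube where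
  a : ℤ
  b : ℤ
  c : ℤ
  d : ℤ
  e : ℤ
  f : ℤ
  g : ℤ
  h : ℤ

variable {D : ℤ}

/-- The forms of a cube are `F`, `G`, `H`. -/
def Cube.Slices (T : Cube) (F G H : Form D) : Prop :=
  (F.a = T.b * T.c - T.a * T.d ∧ F.b = T.a * T.h + T.d * T.e - T.b * T.g - T.c * T.f ∧
      F.c = T.f * T.g - T.e * T.h) ∧
    (G.a = T.c * T.e - T.a * T.g ∧ G.b = T.a * T.h + T.b * T.g - T.c * T.f - T.d * T.e ∧
      G.c = T.d * T.f - T.b * T.h) ∧
    (H.a = T.b * T.e - T.a * T.f ∧ H.b = T.a * T.h + T.c * T.f - T.b * T.g - T.d * T.e ∧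
      H.c = T.d * T.g - T.c * T.h)

/-- A matrix on the first pair of slices. -/
def Cube.act1 (T : Cube) (p q r s : ℤ) : Cube :=
  ⟨p * T.a + r * T.e, p * T.b + r * T.f, p * T.c + r * T.g, p * T.d + r * T.h,
    q * T.a + s * T.e, q * T.b + s * T.f, q * T.c + s * T.g, q * T.d + s * T.h⟩

/-- A matrix on the second pair of slices. -/
def Cube.act2 (T : Cube) (p q r s : ℤ) : Cube :=
  ⟨p * T.a + r * T.b, q * T.a + s * T.b, p * T.c + r * T.d, q * T.c + s * T.d,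
    p * T.e + r * T.f, q * T.e + s * T.f, p * T.g + r * T.h, q * T.g + s * T.h⟩

/-- A matrix on the third pair of slices. -/
def Cube.act3 (T : Cube) (p q r s : ℤ) : Cube :=
  ⟨p * T.a + r * T.c, p * T.b + r * T.d, q * T.a + s * T.c, q * T.b + s * T.d,
    p * T.e + r * T.g, p * T.f + r * T.h, q * T.e + s * T.g, q * T.f + s * T.h⟩

/-- Equivalence under the three copies of `SL₂ (ℤ)`. -/
def Cube.Equivalent (T T' : Cube) : Prop :=
  ∃ p₁ q₁ r₁ s₁ p₂ q₂ r₂ s₂ p₃ q₃ r₃ s₃ : ℤ,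
    p₁ * s₁ - q₁ * r₁ = 1 ∧ p₂ * s₂ - q₂ * r₂ = 1 ∧ p₃ * s₃ - q₃ * r₃ = 1 ∧
      T' = ((T.act1 p₁ q₁ r₁ s₁).act2 p₂ q₂ r₂ s₂).act3 p₃ q₃ r₃ s₃

theorem Cube.equivalent_act1 (T : Cube) {p q r s : ℤ} (h : p * s - q * r = 1) :
    T.Equivalent (T.act1 p q r s) :=
  ⟨p, q, r, s, 1, 0, 0, 1, 1, 0, 0, 1, h, by ring, by ring, by
    ext <;> simp [Cube.act1, Cube.act2, Cube.act3]⟩

theorem Cube.equivalent_act2 (T : Cube) {p q r s : ℤ} (h : p * s - q * r = 1) :
    T.Equivalent (T.act2 p q r s) :=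
  ⟨1, 0, 0, 1, p, q, r, s, 1, 0, 0, 1, by ring, h, by ring, by
    ext <;> simp [Cube.act1, Cube.act2, Cube.act3]⟩

theorem Cube.equivalent_act3 (T : Cube) {p q r s : ℤ} (h : p * s - q * r = 1) :
    T.Equivalent (T.act3 p q r s) :=
  ⟨1, 0, 0, 1, 1, 0, 0, 1, p, q, r, s, by ring, by ring, h, by
    ext <;> simp [Cube.act1, Cube.act2, Cube.act3]⟩

theorem Cube.equivalent_equivalence : Equivalence Cube.Equivalent where
  refl T := ⟨1, 0, 0, 1, 1, 0, 0, 1, 1, 0, 0, 1, by ring, by ring, by ring, by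
    ext <;> simp [Cube.act1, Cube.act2, Cube.act3]⟩
  symm := by
    rintro T _ ⟨p₁, q₁, r₁, s₁, p₂, q₂, r₂, s₂, p₃, q₃, r₃, s₃, h₁, h₂, h₃, rfl⟩
    refine ⟨s₁, -q₁, -r₁, p₁, s₂, -q₂, -r₂, p₂, s₃, -q₃, -r₃, p₃, by linear_combination h₁,
      by linear_combination h₂, by linear_combination h₃, ?_⟩
    have k : (p₁ * s₁ - q₁ * r₁) * (p₂ * s₂ - q₂ * r₂) * (p₃ * s₃ - q₃ * r₃) = 1 := by
      rw [h₁, h₂, h₃]; ring
    ext <;> simp only [Cube.act1, Cube.act2, Cube.act3]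
    · linear_combination -T.a * k
    · linear_combination -T.b * k
    · linear_combination -T.c * k
    · linear_combination -T.d * k
    · linear_combination -T.e * k
    · linear_combination -T.f * k
    · linear_combination -T.g * k
    · linear_combination -T.h * k
  trans := by
    rintro T _ _ ⟨p₁, q₁, r₁, s₁, p₂, q₂, r₂, s₂, p₃, q₃, r₃, s₃, h₁, h₂, h₃, rfl⟩
      ⟨p₁', q₁', r₁', s₁', p₂', q₂', r₂', s₂', p₃', q₃', r₃', s₃', h₁', h₂', h₃', rfl⟩
    refine ⟨p₁ * p₁' + q₁ * r₁', p₁ * q₁' + q₁ * s₁', r₁ * p₁' + s₁ * r₁', r₁ * q₁' + s₁ * s₁',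
      p₂ * p₂' + q₂ * r₂', p₂ * q₂' + q₂ * s₂', r₂ * p₂' + s₂ * r₂', r₂ * q₂' + s₂ * s₂',
      p₃ * p₃' + q₃ * r₃', p₃ * q₃' + q₃ * s₃', r₃ * p₃' + s₃ * r₃', r₃ * q₃' + s₃ * s₃',
      ?_, ?_, ?_, ?_⟩
    · linear_combination (p₁ * s₁ - q₁ * r₁) * h₁' + h₁
    · linear_combination (p₂ * s₂ - q₂ * r₂) * h₂' + h₂
    · linear_combination (p₃ * s₃ - q₃ * r₃) * h₃' + h₃
    · ext <;> simp only [Cube.act1, Cube.act2, Cube.act3] <;> ring

/-! ### The forms of a moved cube -/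

theorem Cube.Slices.act1 {T : Cube} {F G H F' : Form D} (h : T.Slices F G H)
    {p q r s : ℤ} (hdet : p * s - q * r = 1) (ha : F'.a = F.eval p r)
    (hb : F'.b = 2 * F.a * p * q + F.b * (p * s + q * r) + 2 * F.c * r * s)
    (hc : F'.c = F.eval q s) : (T.act1 p (-q) (-r) s).Slices F' G H := by
  obtain ⟨⟨f1, f2, f3⟩, ⟨g1, g2, g3⟩, k1, k2, k3⟩ := h
  simp only [Form.eval, f1, f2, f3] at ha hb hc
  refine ⟨⟨?_, ?_, ?_⟩, ⟨?_, ?_, ?_⟩, ?_, ?_, ?_⟩ <;>
    simp only [Cube.act1, ha, hb, hc, g1, g2, g3, k1, k2, k3]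
  · ring
  · ring
  · ring
  · linear_combination -(T.c * T.e - T.a * T.g) * hdet
  · linear_combination -(T.a * T.h + T.b * T.g - T.c * T.f - T.d * T.e) * hdet
  · linear_combination -(T.d * T.f - T.b * T.h) * hdet
  · linear_combination -(T.b * T.e - T.a * T.f) * hdet
  · linear_combination -(T.a * T.h + T.c * T.f - T.b * T.g - T.d * T.e) * hdet
  · linear_combination -(T.d * T.g - T.c * T.h) * hdet

theorem Cube.Slices.act2 {T : Cube} {F G H G' : Form D} (h : T.Slices F G H)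
    {p q r s : ℤ} (hdet : p * s - q * r = 1) (ha : G'.a = G.eval p r)
    (hb : G'.b = 2 * G.a * p * q + G.b * (p * s + q * r) + 2 * G.c * r * s)
    (hc : G'.c = G.eval q s) : (T.act2 p (-q) (-r) s).Slices F G' H := by
  obtain ⟨⟨f1, f2, f3⟩, ⟨g1, g2, g3⟩, k1, k2, k3⟩ := h
  simp only [Form.eval, g1, g2, g3] at ha hb hc
  refine ⟨⟨?_, ?_, ?_⟩, ⟨?_, ?_, ?_⟩, ?_, ?_, ?_⟩ <;>
    simp only [Cube.act2, ha, hb, hc, f1, f2, f3, k1, k2, k3]
  · linear_combination -(T.b * T.c - T.a * T.d) * hdet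
  · linear_combination -(T.a * T.h + T.d * T.e - T.b * T.g - T.c * T.f) * hdet
  · linear_combination -(T.f * T.g - T.e * T.h) * hdet
  · ring
  · ring
  · ring
  · linear_combination -(T.b * T.e - T.a * T.f) * hdet
  · linear_combination -(T.a * T.h + T.c * T.f - T.b * T.g - T.d * T.e) * hdet
  · linear_combination -(T.d * T.g - T.c * T.h) * hdet

theorem Cube.Slices.act3 {T : Cube} {F G H H' : Form D} (h : T.Slices F G H)
    {p q r s : ℤ} (hdet : p * s - q * r = 1) (ha : H'.a = H.eval p r)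
    (hb : H'.b = 2 * H.a * p * q + H.b * (p * s + q * r) + 2 * H.c * r * s)
    (hc : H'.c = H.eval q s) : (T.act3 p (-q) (-r) s).Slices F G H' := by
  obtain ⟨⟨f1, f2, f3⟩, ⟨g1, g2, g3⟩, k1, k2, k3⟩ := h
  simp only [Form.eval, k1, k2, k3] at ha hb hc
  refine ⟨⟨?_, ?_, ?_⟩, ⟨?_, ?_, ?_⟩, ?_, ?_, ?_⟩ <;>
    simp only [Cube.act3, ha, hb, hc, f1, f2, f3, g1, g2, g3]
  · linear_combination -(T.b * T.c - T.a * T.d) * hdet
  · linear_combination -(T.a * T.h + T.d * T.e - T.b * T.g - T.c * T.f) * hdet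
  · linear_combination -(T.f * T.g - T.e * T.h) * hdet
  · linear_combination -(T.c * T.e - T.a * T.g) * hdet
  · linear_combination -(T.a * T.h + T.b * T.g - T.c * T.f - T.d * T.e) * hdet
  · linear_combination -(T.d * T.f - T.b * T.h) * hdet
  · ring
  · ring
  · ring

/-! ### Pairs with the same minors -/

/-- Two pairs of integral vectors with the same coprime minors differ by `SL₂`. -/
theorem exists_sl_of_minors {ι : Type*} [Fintype ι] {u v u' v' : ι → ℤ}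
    (h : ∀ i j, u' i * v' j - u' j * v' i = u i * v j - u j * v i) (C : ι → ι → ℤ)
    (hC : ∑ i, ∑ j, C i j * (u i * v j - u j * v i) = 1) :
    ∃ p q r s : ℤ, p * s - q * r = 1 ∧ (∀ k, u' k = p * u k + r * v k) ∧
      ∀ k, v' k = q * u k + s * v k := by
  have key : ∀ w : ι → ℤ, (∀ i j k, w k * (u i * v j - u j * v i) -
      w j * (u i * v k - u k * v i) + w i * (u j * v k - u k * v j) = 0) →
      ∀ k, w k = (∑ i, ∑ j, C i j * (w i * v j - w j * v i)) * u k +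
        (∑ i, ∑ j, C i j * (u i * w j - u j * w i)) * v k := by
    intro w hw k
    calc w k = w k * ∑ i, ∑ j, C i j * (u i * v j - u j * v i) := by rw [hC, mul_one]
      _ = ∑ i, ∑ j, (C i j * (w i * v j - w j * v i) * u k +
            C i j * (u i * w j - u j * w i) * v k) := by
          rw [Finset.mul_sum]
          refine Finset.sum_congr rfl fun i _ => ?_
          rw [Finset.mul_sum]
          refine Finset.sum_congr rfl fun j _ => ?_
          linear_combination C i j * hw i j k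
      _ = _ := by simp only [Finset.sum_add_distrib, Finset.sum_mul]
  have hu := key u' fun i j k => by rw [← h, ← h, ← h]; ring
  have hv := key v' fun i j k => by rw [← h, ← h, ← h]; ring
  obtain ⟨p, hp⟩ : ∃ p, ∑ i, ∑ j, C i j * (u' i * v j - u' j * v i) = p := ⟨_, rfl⟩
  obtain ⟨r, hr⟩ : ∃ r, ∑ i, ∑ j, C i j * (u i * u' j - u j * u' i) = r := ⟨_, rfl⟩
  obtain ⟨q, hq⟩ : ∃ q, ∑ i, ∑ j, C i j * (v' i * v j - v' j * v i) = q := ⟨_, rfl⟩
  obtain ⟨s, hs⟩ : ∃ s, ∑ i, ∑ j, C i j * (u i * v' j - u j * v' i) = s := ⟨_, rfl⟩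
  simp only [hp, hr] at hu
  simp only [hq, hs] at hv
  refine ⟨p, q, r, s, ?_, hu, hv⟩
  calc p * s - q * r = (p * s - q * r) * ∑ i, ∑ j, C i j * (u i * v j - u j * v i) := by
        rw [hC, mul_one]
    _ = ∑ i, ∑ j, C i j * (u' i * v' j - u' j * v' i) := by
        simp only [Finset.mul_sum]
        refine Finset.sum_congr rfl fun i _ => Finset.sum_congr rfl fun j _ => ?_
        rw [hu i, hu j, hv i, hv j]
        ring
    _ = 1 := by simp only [h, hC]

/-- Two forms of a cube fix it up to the third matrix. -/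
theorem Cube.exists_act3 {T T' : Cube} {F G H : Form D} (hT : T.Slices F G H)
    (hF : F.a = T'.b * T'.c - T'.a * T'.d ∧
      F.b = T'.a * T'.h + T'.d * T'.e - T'.b * T'.g - T'.c * T'.f ∧
      F.c = T'.f * T'.g - T'.e * T'.h)
    (hG : G.a = T'.c * T'.e - T'.a * T'.g ∧
      G.b = T'.a * T'.h + T'.b * T'.g - T'.c * T'.f - T'.d * T'.e ∧
      G.c = T'.d * T'.f - T'.b * T'.h) :
    ∃ p q r s : ℤ, p * s - q * r = 1 ∧ T' = T.act3 p q r s := by
  obtain ⟨⟨f1, f2, f3⟩, ⟨g1, g2, g3⟩, -⟩ := hT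
  obtain ⟨f1', f2', f3'⟩ := hF
  obtain ⟨g1', g2', g3'⟩ := hG
  obtain ⟨x, y, z, hxyz⟩ := F.exists_bezout
  obtain ⟨p, q, r, s, hdet, hu, hv⟩ := exists_sl_of_minors (ι := Fin 4)
    (u := ![T.a, T.e, T.b, T.f]) (v := ![T.c, T.g, T.d, T.h])
    (u' := ![T'.a, T'.e, T'.b, T'.f]) (v' := ![T'.c, T'.g, T'.d, T'.h])
    (fun i j => by fin_cases i <;> fin_cases j <;> simp <;> linarith)
    ![![0, 0, -x, z], ![0, 0, 0, -y], ![0, -z, 0, 0], ![0, 0, 0, 0]] (by
      simp [Fin.sum_univ_four]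
      rw [f1, f2, f3] at hxyz
      linear_combination hxyz)
  refine ⟨p, q, r, s, hdet, ?_⟩
  ext <;> simp only [Cube.act3]
  exacts [hu 0, hu 2, hv 0, hv 2, hu 1, hu 3, hv 1, hv 3]

end FA.BhargavaCubes
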