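import Fermat.Agent.BhargavaCubes.Basic

/-!
# Bhargava's cube law

For united forms the cube can be written down; every cube is equivalent to one of these, as two of
its forms fix it.
-/

set_option autoImplicit false

noncomputable section

namespace FA.BhargavaCubes

open FA.GaussComposition

variable {D : ℤ} (hD : ¬IsSquare D)
include hD

/-- A cube for two forms, with the group relation. -/
theorem exists_cube_pair {μ : FormClass D → FormClass D → FormClass D} (hμ : IsComposition μ)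
    (F G : Form D) {e : Form D} (he : e.a = 1) :
    ∃ (T : Cube) (F' G' H' : Form D), T.Slices F' G' H' ∧ F'.cl = F.cl ∧ G'.cl = G.cl ∧
      μ (μ F.cl G.cl) H'.cl = e.cl := by
  obtain ⟨F', G', C, hf, hg, hcop, hb, hfc, hgc⟩ := exists_united hD F G
  obtain ⟨h, ha, hhb, hhc⟩ := exists_product hb hfc hgc
  obtain ⟨k, hk, hka, hkb⟩ :=
    h.opp.exists_transform hD (p := 0) (q := -1) (r := 1) (s := 0) (by norm_num)
  have hka' : k.a = C := by rw [hka, ← hhc]; simp [Form.eval, Form.opp]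
  have hkb' : k.b = F'.b := by rw [hkb, ← hhb]; simp [Form.opp]
  have hkc : k.c = F'.a * G'.a := by
    have e1 := k.disc
    have e2 := h.disc
    rw [hka', hkb'] at e1
    rw [ha, hhb, hhc] at e2
    refine mul_left_cancel₀ (mul_ne_zero four_ne_zero (show C ≠ 0 from hka' ▸ k.a_ne_zero hD)) ?_
    linear_combination e2 - e1
  have hfF : F'.cl = F.cl := (Quot.sound hf).symm
  have hgG : G'.cl = G.cl := (Quot.sound hg).symm
  refine ⟨⟨1, 0, 0, -F'.a, 0, -C, -G'.a, F'.b⟩, F', G', k,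
    ⟨⟨?_, ?_, ?_⟩, ⟨?_, ?_, ?_⟩, ?_, ?_, ?_⟩, hfF, hgG, ?_⟩
  all_goals try simp only [hka', hkb', hkc, hfc, hgc, ← hb]
  all_goals try ring
  obtain ⟨u, v, huv⟩ := hcop
  rw [← hfF, ← hgG, hμ F' G' h F'.a G'.a F'.b C rfl rfl hfc rfl hb.symm hgc ha hhb hhc
    ⟨u, v, 0, by rw [zero_mul, add_zero, huv]⟩]
  obtain ⟨_, hG, h1, hinv, -⟩ := GaussDuplication.exists_commGroup hD hμ h
  subst hG
  show h.cl * k.cl = e.cl
  rw [← show h.opp.cl = k.cl from Quot.sound hk, hinv h h.opp rfl rfl rfl, mul_inv_cancel, h1 e he]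

/-- Cubes with two forms in given classes can be moved to given representatives. -/
theorem exists_moved {T : Cube} {F G H F' G' : Form D} (hT : T.Slices F G H) (hF : F.cl = F'.cl)
    (hG : G.cl = G'.cl) : ∃ T' : Cube, T.Equivalent T' ∧ T'.Slices F' G' H := by
  obtain ⟨p, q, r, s, hdet, ha, hb, hc⟩ := (cl_eq_iff hD).1 hF
  obtain ⟨p', q', r', s', hdet', ha', hb', hc'⟩ := (cl_eq_iff hD).1 hG
  exact ⟨_, Cube.equivalent_equivalence.trans (T.equivalent_act1 (by linear_combination hdet))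
    (Cube.equivalent_act2 _ (by linear_combination hdet')),
    (hT.act1 hdet ha hb hc).act2 hdet' ha' hb' hc'⟩

omit hD in
/-- A cube has at most one triple of forms. -/
theorem slices_unique {T : Cube} {F G H F' G' H' : Form D} (h : T.Slices F G H)
    (h' : T.Slices F' G' H') : F = F' ∧ G = G' ∧ H = H' :=
  ⟨Form.ext (h.1.1.trans h'.1.1.symm) (h.1.2.1.trans h'.1.2.1.symm)
      (h.1.2.2.trans h'.1.2.2.symm),
    Form.ext (h.2.1.1.trans h'.2.1.1.symm) (h.2.1.2.1.trans h'.2.1.2.1.symm)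
      (h.2.1.2.2.trans h'.2.1.2.2.symm),
    Form.ext (h.2.2.1.trans h'.2.2.1.symm) (h.2.2.2.1.trans h'.2.2.2.1.symm)
      (h.2.2.2.2.trans h'.2.2.2.2.symm)⟩

/-- The classes are unchanged. -/
theorem slices_of_equivalent {T T' : Cube} {F G H : Form D} (hT : T.Slices F G H)
    (h : T.Equivalent T') : ∃ F' G' H' : Form D, T'.Slices F' G' H' ∧
      F'.cl = F.cl ∧ G'.cl = G.cl ∧ H'.cl = H.cl := by
  obtain ⟨p₁, q₁, r₁, s₁, p₂, q₂, r₂, s₂, p₃, q₃, r₃, s₃, h₁, h₂, h₃, rfl⟩ := h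
  obtain ⟨F', hF, hFa, hFb⟩ :=
    F.exists_transform hD (p := p₁) (q := -q₁) (r := -r₁) (s := s₁) (by linear_combination h₁)
  obtain ⟨G', hG, hGa, hGb⟩ :=
    G.exists_transform hD (p := p₂) (q := -q₂) (r := -r₂) (s := s₂) (by linear_combination h₂)
  obtain ⟨H', hH, hHa, hHb⟩ :=
    H.exists_transform hD (p := p₃) (q := -q₃) (r := -r₃) (s := s₃) (by linear_combination h₃)
  have hc : ∀ (E E' : Form D) (p q r s : ℤ), p * s - q * r = 1 → E'.a = E.eval p r →
      E'.b = 2 * E.a * p * q + E.b * (p * s + q * r) + 2 * E.c * r * s → E'.c = E.eval q s := by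
    intro E E' p q r s hd ha hb
    refine mul_left_cancel₀ (mul_ne_zero four_ne_zero (E'.a_ne_zero hD)) ?_
    have e := E'.disc
    rw [hb] at e
    rw [ha] at e ⊢
    simp only [Form.eval] at e ⊢
    linear_combination E.disc - e + (E.b ^ 2 - 4 * E.a * E.c) * (p * s - q * r + 1) * hd
  refine ⟨F', G', H', ?_, (Quot.sound hF).symm, (Quot.sound hG).symm, (Quot.sound hH).symm⟩
  have := ((hT.act1 (by linear_combination h₁) hFa hFb
    (hc F F' p₁ (-q₁) (-r₁) s₁ (by linear_combination h₁) hFa hFb)).act2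
    (by linear_combination h₂) hGa hGb
    (hc G G' p₂ (-q₂) (-r₂) s₂ (by linear_combination h₂) hGa hGb)).act3
    (by linear_combination h₃) hHa hHb
    (hc H H' p₃ (-q₃) (-r₃) s₃ (by linear_combination h₃) hHa hHb)
  simpa only [neg_neg] using this

/-- Two classes fix the cube, and so the third class. -/
theorem equivalent_of_pair {T T' : Cube} {F G H F' G' H' : Form D} (hT : T.Slices F G H)
    (hT' : T'.Slices F' G' H') (hF : F.cl = F'.cl) (hG : G.cl = G'.cl) :
    T.Equivalent T' ∧ H.cl = H'.cl := by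
  obtain ⟨T₁, h1, hT₁⟩ := exists_moved hD hT hF hG
  obtain ⟨p, q, r, s, hdet, rfl⟩ := Cube.exists_act3 hT₁ hT'.1 hT'.2.1
  have heq : T.Equivalent (T₁.act3 p q r s) :=
    Cube.equivalent_equivalence.trans h1 (T₁.equivalent_act3 hdet)
  obtain ⟨A, B, C, hs, -, -, hC⟩ := slices_of_equivalent hD hT heq
  exact ⟨heq, by rw [← hC, (slices_unique hs hT').2.2]⟩

/-- **The cube law.** -/
theorem cube_law {μ : FormClass D → FormClass D → FormClass D} (hμ : IsComposition μ) {T : Cube}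
    {F G H e : Form D} (hT : T.Slices F G H) (he : e.a = 1) :
    μ (μ F.cl G.cl) H.cl = e.cl := by
  obtain ⟨T', F', G', H', hs, hF, hG, hsum⟩ := exists_cube_pair hD hμ F G he
  rw [(equivalent_of_pair hD hT hs hF.symm hG.symm).2]
  exact hsum

/-- **Every triple with product one comes from a cube.** -/
theorem exists_cube {μ : FormClass D → FormClass D → FormClass D} (hμ : IsComposition μ)
    {F G H e : Form D} (he : e.a = 1) (h : μ (μ F.cl G.cl) H.cl = e.cl) :
    ∃ (T : Cube) (F' G' H' : Form D), T.Slices F' G' H' ∧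
      F'.cl = F.cl ∧ G'.cl = G.cl ∧ H'.cl = H.cl := by
  obtain ⟨T, F', G', H', hs, hF, hG, hsum⟩ := exists_cube_pair hD hμ F G he
  refine ⟨T, F', G', H', hs, hF, hG, ?_⟩
  obtain ⟨_, hG', -, -, -⟩ := GaussDuplication.exists_commGroup hD hμ F
  subst hG'
  exact mul_left_cancel (hsum.trans h.symm)

/-- **The classes of the forms classify the cubes.** -/
theorem equivalent_iff {T T' : Cube} {F G H F' G' H' : Form D} (hT : T.Slices F G H)
    (hT' : T'.Slices F' G' H') :
    T.Equivalent T' ↔ F.cl = F'.cl ∧ G.cl = G'.cl ∧ H.cl = H'.cl := by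
  refine ⟨fun h => ?_, fun ⟨hF, hG, _⟩ => (equivalent_of_pair hD hT hT' hF hG).1⟩
  obtain ⟨A, B, C, hs, hA, hB, hC⟩ := slices_of_equivalent hD hT h
  obtain ⟨rfl, rfl, rfl⟩ := slices_unique hs hT'
  exact ⟨hA.symm, hB.symm, hC.symm⟩

/-- **The third form is then primitive, positive, of the same discriminant.** -/
theorem exists_third {T : Cube} {F G : Form D}
    (hF : F.a = T.b * T.c - T.a * T.d ∧ F.b = T.a * T.h + T.d * T.e - T.b * T.g - T.c * T.f ∧
      F.c = T.f * T.g - T.e * T.h)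
    (hG : G.a = T.c * T.e - T.a * T.g ∧ G.b = T.a * T.h + T.b * T.g - T.c * T.f - T.d * T.e ∧
      G.c = T.d * T.f - T.b * T.h) : ∃ H : Form D, T.Slices F G H := by
  obtain ⟨_, -, -, hc, -⟩ := exists_group hD (GaussDuplication.disc_mod_four F)
  obtain ⟨e, he⟩ := exists_principal_form (GaussDuplication.disc_mod_four F)
  obtain ⟨T', F', G', H', hs, hF', hG', -⟩ := exists_cube_pair hD hc F G he
  obtain ⟨T₁, -, hT₁⟩ := exists_moved hD hs hF' hG'
  obtain ⟨p, q, r, s, hdet, rfl⟩ := Cube.exists_act3 hT₁ hF hG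
  obtain ⟨A, B, C, hs', -, -, -⟩ := slices_of_equivalent hD hT₁ (T₁.equivalent_act3 hdet)
  obtain rfl : A = F := Form.ext (hs'.1.1.trans hF.1.symm) (hs'.1.2.1.trans hF.2.1.symm)
    (hs'.1.2.2.trans hF.2.2.symm)
  obtain rfl : B = G := Form.ext (hs'.2.1.1.trans hG.1.symm) (hs'.2.1.2.1.trans hG.2.1.symm)
    (hs'.2.1.2.2.trans hG.2.2.symm)
  exact ⟨C, hs'⟩

/-- The projective cubes of discriminant `D`, with positive forms for `D < 0`. -/
abbrev ProjCube (D : ℤ) : Type := {T : Cube // ∃ F G H : Form D, T.Slices F G H}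

/-- **The bijection.** -/
theorem exists_equiv {μ : FormClass D → FormClass D → FormClass D} (hμ : IsComposition μ)
    {e : Form D} (he : e.a = 1) :
    ∃ Φ : Quot (fun T T' : ProjCube D => T.1.Equivalent T'.1) ≃
        {x : FormClass D × FormClass D × FormClass D // μ (μ x.1 x.2.1) x.2.2 = e.cl},
      ∀ (T : ProjCube D) (F G H : Form D), T.1.Slices F G H →
        (Φ (Quot.mk _ T)).1 = (F.cl, G.cl, H.cl) := by
  choose F G H hs using fun T : ProjCube D => T.2
  let φ : ProjCube D →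
      {x : FormClass D × FormClass D × FormClass D // μ (μ x.1 x.2.1) x.2.2 = e.cl} :=
    fun T => ⟨((F T).cl, (G T).cl, (H T).cl), cube_law hD hμ (hs T) he⟩
  have hφ : ∀ T T' : ProjCube D, T.1.Equivalent T'.1 → φ T = φ T' := fun T T' h => by
    obtain ⟨e1, e2, e3⟩ := (equivalent_iff hD (hs T) (hs T')).1 h
    exact Subtype.ext (Prod.ext e1 (Prod.ext e2 e3))
  refine ⟨Equiv.ofBijective (Quot.lift φ hφ) ⟨?_, ?_⟩, fun T F' G' H' h => ?_⟩
  · intro x y h
    obtain ⟨T, rfl⟩ := Quot.exists_rep x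
    obtain ⟨T', rfl⟩ := Quot.exists_rep y
    have h' := congrArg Subtype.val h
    simp only [φ, Prod.mk.injEq] at h'
    exact Quot.sound ((equivalent_iff hD (hs T) (hs T')).2 h')
  · rintro ⟨⟨x, y, z⟩, hxyz⟩
    obtain ⟨A, rfl⟩ := Quot.exists_rep x
    obtain ⟨B, rfl⟩ := Quot.exists_rep y
    obtain ⟨C, rfl⟩ := Quot.exists_rep z
    obtain ⟨T, A', B', C', hs', hA, hB, hC⟩ := exists_cube hD hμ he hxyz
    refine ⟨Quot.mk _ ⟨T, A', B', C', hs'⟩, Subtype.ext ?_⟩
    obtain ⟨e1, e2, e3⟩ := slices_unique (hs ⟨T, A', B', C', hs'⟩) hs'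
    show ((F _).cl, (G _).cl, (H _).cl) = _
    rw [e1, e2, e3, hA, hB, hC]
  · obtain ⟨e1, e2, e3⟩ := slices_unique (hs T) h
    show ((F _).cl, (G _).cl, (H _).cl) = _
    rw [e1, e2, e3]

/-- The number of classes of cubes. -/
theorem card_cubes {μ : FormClass D → FormClass D → FormClass D} (hμ : IsComposition μ)
    {e : Form D} (he : e.a = 1) :
    Nat.card (Quot fun T T' : ProjCube D => T.1.Equivalent T'.1) =
      Nat.card (FormClass D) ^ 2 := by
  obtain ⟨Φ, -⟩ := exists_equiv hD hμ he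
  obtain ⟨G, hG, h1, -, -⟩ := GaussDuplication.exists_commGroup hD hμ e
  subst hG
  rw [Nat.card_congr Φ, pow_two, ← Nat.card_prod]
  exact Nat.card_congr
    { toFun := fun x => (x.1.1, x.1.2.1)
      invFun := fun x => ⟨(x.1, x.2, (x.1 * x.2)⁻¹), by
        show x.1 * x.2 * (x.1 * x.2)⁻¹ = e.cl
        rw [mul_inv_cancel, h1 e he]⟩
      left_inv := fun ⟨⟨x, y, z⟩, h⟩ => by
        refine Subtype.ext (Prod.ext rfl (Prod.ext rfl ?_))
        exact (eq_inv_of_mul_eq_one_right (show x * y * z = 1 from h.trans (h1 e he))).symm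
      right_inv := fun _ => rfl }

end FA.BhargavaCubes
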